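import Mathlib
import Fermat.Agent.LT.General.Spectral.Data
import Fermat.Agent.LT.Descent.Spectral.Twist

set_option autoImplicit false

/-!
# The families of the matched pairings
-/

noncomputable section

open MeasureTheory NumberField IsDedekindDomain
open scoped ComplexConjugate MatrixGroups InnerProductSpace
open FermatAgent.LT (YSpace yVol AutDomain galOp)

namespace FermatAgent.LTG

namespace DescentData

variable {S : Setup} (P : DescentData S)
  {𝔇F : AutDomain PGL(2, S.F) (yVol (P.D.levelIdeal S.F))}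
  {𝔇K : AutDomain PGL(2, S.K) (yVol (P.D.levelIdeal S.K))}

/-- The first family on `F`. -/
def aF {ι : Type*} (e : ι → 𝔇F.Space) (i : ι) : 𝔇F.Space :=
  Combo.OF P.D P.σ P.An.A 𝔇F (galOp (P.D.levelIdeal_map P.σ) 𝔇F (e i))

/-- The second family on `F`. -/
def cF {ι : Type*} (e : ι → 𝔇F.Space) (i : ι) : 𝔇F.Space :=
  Combo.OF P.D P.σ (Combo.single (KWord.heckeW P.w₀ P.letter_w₀)) 𝔇F
    (Combo.OF P.D P.σ P.An.A 𝔇F (e i))

/-- The first family on `K`. -/
def aK {ι : Type*} (e : ι → 𝔇K.Space) (i : ι) : 𝔇K.Space :=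
  Combo.OK P.D P.σ P.w₁ P.An.A 𝔇K (e i)

/-- The second family on `K`. -/
def cK {ι : Type*} (e : ι → 𝔇K.Space) (i : ι) : 𝔇K.Space :=
  Combo.OK P.D P.σ P.w₁ (Combo.single (KWord.heckeW P.w₀ P.letter_w₀)) 𝔇K
    (Combo.OK P.D P.σ P.w₁ P.An.A 𝔇K (e i))

end DescentData

end FermatAgent.LTG

end
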