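import Mathlib
import Fermat.Agent.LT.General.Spectral.Compare.Defs
import Fermat.Agent.LT.General.Facts.Trace
import Fermat.Agent.LT.Descent.Spectral.Pair

set_option autoImplicit false

/-!
# A vector on `K` with the prescribed eigenvalues
-/

noncomputable section

open MeasureTheory NumberField IsDedekindDomain
open scoped ComplexConjugate MatrixGroups InnerProductSpace
open FermatAgent.LT (H3 YSpace yVol AutDomain IsYKernel yKer yConv unitKer placeKer)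

namespace FermatAgent.LTG

theorem symm_cube_eigen {E : Type*} [NormedAddCommGroup E] [InnerProductSpace ℂ E]
    {U : E →L[ℂ] E} (hU : ∀ x y, ⟪U x, y⟫_ℂ = ⟪x, U y⟫_ℂ) {c : ℝ} (hc : 0 < c) {u : E}
    (h : U (U (U u)) = ((c : ℂ) ^ 3) • u) : U u = (c : ℂ) • u := by
  set z := U u - (c : ℂ) • u with hz
  have h1 : U (U z) + (c : ℂ) • U z + ((c : ℂ) ^ 2) • z = 0 := by
    simp only [hz, map_sub, map_smul, h]
    module
  have h2 : ⟪U (U z), z⟫_ℂ + (c : ℂ) * ⟪U z, z⟫_ℂ + (c : ℂ) ^ 2 * ⟪z, z⟫_ℂ = 0 := by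
    have h3 := congrArg (fun v => ⟪v, z⟫_ℂ) h1
    simp at h3 ⊢
    linear_combination h3
  rw [hU (U z) z] at h2
  have h3 : ‖U z‖ ^ 2 + c * (⟪U z, z⟫_ℂ).re + c ^ 2 * ‖z‖ ^ 2 = 0 := by
    have h4 := congrArg Complex.re h2
    simpa [inner_self_eq_norm_sq_to_K, pow_two] using h4
  have h4 : |(⟪U z, z⟫_ℂ).re| ≤ ‖U z‖ * ‖z‖ :=
    (Complex.abs_re_le_norm _).trans (norm_inner_le_norm _ _)
  have h5 : ‖z‖ = 0 := by
    by_contra hne
    have hpos : 0 < ‖z‖ := (norm_nonneg z).lt_of_ne' hne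
    nlinarith [sq_nonneg (2 * ‖U z‖ - c * ‖z‖), mul_pos hc hpos, neg_le_of_abs_le h4,
      mul_le_mul_of_nonneg_left (neg_le_of_abs_le h4) hc.le]
  exact sub_eq_zero.mp (norm_eq_zero.mp h5)

variable {S : Setup}

theorem unitMean_F_eq : unitMean S.F = unitMean S.K ^ 3 := by
  rw [unitMean, unitMean, S.natCard_infinitePlace, ← pow_mul, mul_comm]

namespace DescentData

variable (P : DescentData S)

theorem slot_ballW (x : InfinitePlace S.K) (q : ℝ) (y : InfinitePlace S.K) :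
    S.slotKer P.σ P.w₁ (KWord.ballW (S := S) (P.w₁ x) q).ker y =
      LT.H3.kConv (LT.H3.kConv (LT.H3.kConv (LT.H3.ballKer q) (LT.H3.ballKer 1))
        (LT.H3.ballKer 1)) (LT.H3.ballKer 1) := by
  classical
  obtain rfl : y = x := Subsingleton.elim _ _
  have h := S.infinitePlace_orbit_injective P.isGen (P.w₁ y)
  simp only [Setup.slotKer, KWord.ballW]
  rw [Function.update_self, Function.update_of_ne h.1, Function.update_of_ne h.2]

theorem kerK_unitW :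
    yConv (yConv (unitKer P.D.levelOpK) (unitKer P.D.levelOpK)) (unitKer P.D.levelOpK) =
      (KWord.unitW S).kerK P.D P.σ P.w₁ := by
  have hT := P.D.isCosetOp_levelOpK
  simp only [unitKer, LT.yConv_yKer hT hT, P.D.levelOpK_idem]
  simp [KWord.kerK_eq, KWord.opK, KWord.unitW]
  rfl

theorem kerK_ballW (x : InfinitePlace S.K) (q : ℝ) :
    yConv (yConv (placeKer P.D.levelOpK x q) (unitKer P.D.levelOpK)) (unitKer P.D.levelOpK) =
      (KWord.ballW (S := S) (P.w₁ x) q).kerK P.D P.σ P.w₁ := by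
  classical
  have hT := P.D.isCosetOp_levelOpK
  simp only [placeKer, unitKer, LT.yConv_yKer hT hT, P.D.levelOpK_idem]
  rw [KWord.kerK_eq, show (KWord.ballW (S := S) (P.w₁ x) q).opK P.D = P.D.levelOpK from by
    simp [KWord.opK, KWord.ballW]]
  congr 1
  funext y
  rw [P.slot_ballW x q y]
  simp [Function.update, Subsingleton.elim y x]

theorem kerK_heckeW (w : HeightOneSpectrum (𝓞 S.F)) (hw : S.IsLetter w) :
    yConv (yConv (unitKer (P.D.levelOpK * P.D.bcOp w)) (unitKer P.D.levelOpK))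
        (unitKer P.D.levelOpK) = (KWord.heckeW w hw).kerK P.D P.σ P.w₁ := by
  have hT := P.D.isCosetOp_levelOpK
  have hB := hT.mul (KWord.isCosetOp_bcOp (D := P.D) hw.1)
  have e : P.D.levelOpK * P.D.bcOp w * P.D.levelOpK = P.D.levelOpK * P.D.bcOp w := by
    rw [mul_assoc, ← (KWord.commute_levelOpK_bcOp hw.1).eq, ← mul_assoc, P.D.levelOpK_idem]
  simp only [unitKer, LT.yConv_yKer hB hT, e]
  simp [KWord.kerK_eq, KWord.opK, KWord.heckeW]
  rfl

variable {𝔇F : AutDomain PGL(2, S.F) (yVol (P.D.levelIdeal S.F))}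
  {𝔇K : AutDomain PGL(2, S.K) (yVol (P.D.levelIdeal S.K))}

theorem unit_eigenK {u : 𝔇K.Space} (hu : u ∈ LT.Joint.kerAll (P.XK 𝔇F 𝔇K)) :
    (LT.isYKernel_unitKer P.D.isCosetOp_levelOpK).clm 𝔇K u = unitMean S.K • u := by
  set U := (LT.isYKernel_unitKer P.D.isCosetOp_levelOpK).clm 𝔇K
  have hsymm : ∀ x y, ⟪U x, y⟫_ℂ = ⟪x, U y⟫_ℂ := fun x y =>
    LT.inner_clm_yKer 𝔇K (fun _ => LT.H3.isInvKer_ballKer 1) (fun _ => conj_ballKer 1)
      P.D.isCosetOp_levelOpK P.D.isHermOp_levelOpK x y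
  have h1 := (P.mem_kerK 𝔇F 𝔇K).mp hu (Sum.inl ())
  simp only [combo, scal, Combo.OK_single, unitMean_F_eq] at h1
  have e : U * U * U =
      ((KWord.unitW S).isYKernel_kerK (D := P.D) (σ := P.σ) (w₁ := P.w₁)).clm 𝔇K := by
    rw [IsYKernel.clm_mul, IsYKernel.clm_mul]
    exact clm_congr' 𝔇K _ _ P.kerK_unitW
  rw [← e] at h1
  simp only [LT.StrongLimit.mulv, unitMean, ← Complex.ofReal_pow] at h1 ⊢
  refine symm_cube_eigen hsymm (pow_pos (LT.H3.sph0_pos one_pos) _) ?_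
  rwa [← Complex.ofReal_pow]

theorem eigen_of_unit_sq {u : 𝔇K.Space} (hu : u ∈ LT.Joint.kerAll (P.XK 𝔇F 𝔇K))
    {k : YSpace (P.D.levelIdeal S.K) → YSpace (P.D.levelIdeal S.K) → ℂ} (hk : IsYKernel k)
    {x : KWord S}
    (hx : yConv (yConv k (unitKer P.D.levelOpK)) (unitKer P.D.levelOpK) = x.kerK P.D P.σ P.w₁)
    {r : ℂ} (hr : Combo.OK P.D P.σ P.w₁ (Combo.single x) 𝔇K u = (r * unitMean S.F) • u) :
    hk.clm 𝔇K u = (r * unitMean S.K) • u := by
  set U := (LT.isYKernel_unitKer P.D.isCosetOp_levelOpK).clm 𝔇K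
  have e : hk.clm 𝔇K * U * U =
      (x.isYKernel_kerK (D := P.D) (σ := P.σ) (w₁ := P.w₁)).clm 𝔇K := by
    rw [IsYKernel.clm_mul, IsYKernel.clm_mul]
    exact clm_congr' 𝔇K _ _ hx
  rw [Combo.OK_single, ← e, LT.StrongLimit.mulv, LT.StrongLimit.mulv, P.unit_eigenK hu, map_smul,
    P.unit_eigenK hu, smul_smul, map_smul, unitMean_F_eq] at hr
  refine smul_right_injective _ (mul_ne_zero (unitMean_ne_zero S.K) (unitMean_ne_zero S.K)) ?_
  dsimp only
  rw [hr, smul_smul]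
  congr 1
  ring

/-- **A nonzero vector on `K` with the prescribed eigenvalues.** -/
theorem exists_kerK_ne_zero {ι : Type*} {e : ι → 𝔇K.Space}
    (h : LT.Joint.pairing (P.aK e) (P.cK e)
      (LT.Joint.kerAll (P.XK 𝔇F 𝔇K)).starProjection ≠ 0) :
    ∃ u : 𝔇K.Space, u ≠ 0 ∧ u ∈ LT.Joint.kerAll (P.XK 𝔇F 𝔇K) ∧
      (LT.isYKernel_unitKer P.D.isCosetOp_levelOpK).clm 𝔇K u = unitMean S.K • u ∧
      (∀ (x : InfinitePlace S.K) (q : ℚ), 0 < q →
        (LT.isYKernel_placeKer P.D.isCosetOp_levelOpK x (q : ℝ)).clm 𝔇K u =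
          ((LT.H3.sph0 (q : ℝ) : ℂ) * unitMean S.K) • u) ∧
      (∀ w (hw : S.IsLetter w), S.underK w ≠ P.v₀ →
        (LT.isYKernel_unitKer (P.D.isCosetOp_levelOpK.mul
          (KWord.isCosetOp_bcOp (D := P.D) hw.1))).clm 𝔇K u =
            (lamOf P.t w * unitMean S.K) • u) ∧
      Combo.OK P.D P.σ P.w₁ P.An.A 𝔇K u = (P.An.α : ℂ) • u := by
  by_contra hno
  refine h ((tsum_congr fun i => ?_).trans tsum_zero)
  set u := (LT.Joint.kerAll (P.XK 𝔇F 𝔇K)).starProjection (P.aK e i)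
  have hu : u ∈ LT.Joint.kerAll (P.XK 𝔇F 𝔇K) := Submodule.starProjection_apply_mem _ _
  have heq := (P.mem_kerK 𝔇F 𝔇K).mp hu
  rw [show u = 0 from by_contra fun hne => hno ⟨u, hne, hu, P.unit_eigenK hu,
    fun x q hq => P.eigen_of_unit_sq hu _ (P.kerK_ballW x q)
      (heq (Sum.inr (Sum.inl (P.w₁ x, ⟨q, hq⟩)))),
    fun w hw hne' => P.eigen_of_unit_sq hu _ (P.kerK_heckeW w hw)
      (heq (Sum.inr (Sum.inr (Sum.inl ⟨w, hw, hne'⟩)))),
    heq (Sum.inr (Sum.inr (Sum.inr (Sum.inr ()))))⟩, inner_zero_left]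

end DescentData

end FermatAgent.LTG

end
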