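import Mathlib
import Fermat.Agent.LT.General.Spectral.Compare.Defs
import Fermat.Agent.LT.Descent.Spectral.Pair

set_option autoImplicit false

/-!
# The trace identity as an identity of pairings of projections
-/

noncomputable section

open MeasureTheory NumberField IsDedekindDomain
open scoped ComplexConjugate MatrixGroups InnerProductSpace
open FermatAgent.LT (YSpace yVol AutDomain galOp galY galYEquiv kerSum)

namespace FermatAgent.LTG

namespace DescentData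

variable {S : Setup} (P : DescentData S)
  (𝔇F : AutDomain PGL(2, S.F) (yVol (P.D.levelIdeal S.F)))
  (𝔇K : AutDomain PGL(2, S.K) (yVol (P.D.levelIdeal S.K)))

theorem norm_XF (n : ℕ) (x : 𝔇F.Space) : ‖P.XF 𝔇F 𝔇K n x‖ ≤ ‖x‖ := by
  rw [XF, smul_apply, norm_smul, Complex.norm_real,
    Real.norm_of_nonneg (P.scale_pos 𝔇F 𝔇K _).le]
  refine (mul_le_mul_of_nonneg_left ((P.genF 𝔇F (P.enum n)).le_opNorm x)
    (P.scale_pos 𝔇F 𝔇K _).le).trans ?_
  rw [← mul_assoc]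
  refine mul_le_of_le_one_left (norm_nonneg _) ?_
  rw [scale, inv_mul_le_iff₀ (by positivity), mul_one]
  linarith [norm_nonneg (P.genK 𝔇K (P.enum n))]

theorem norm_XK (n : ℕ) (x : 𝔇K.Space) : ‖P.XK 𝔇F 𝔇K n x‖ ≤ ‖x‖ := by
  rw [XK, smul_apply, norm_smul, Complex.norm_real,
    Real.norm_of_nonneg (P.scale_pos 𝔇F 𝔇K _).le]
  refine (mul_le_mul_of_nonneg_left ((P.genK 𝔇K (P.enum n)).le_opNorm x)
    (P.scale_pos 𝔇F 𝔇K _).le).trans ?_
  rw [← mul_assoc]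
  refine mul_le_of_le_one_left (norm_nonneg _) ?_
  rw [scale, inv_mul_le_iff₀ (by positivity), mul_one]
  linarith [norm_nonneg (P.genF 𝔇F (P.enum n))]

theorem evenAt_annihilator : Combo.EvenAt P.v₀ P.An.A :=
  P.evenAt_combo (Sum.inr (Sum.inr (Sum.inr (Sum.inr ()))))

/-- The letter over `v₀` as a combination. -/
def letter₀ : Combo S := Combo.single (KWord.heckeW P.w₀ P.letter_w₀)

theorem oddAt_letter₀ : Combo.OddAt P.v₀ P.letter₀ := fun x hx => by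
  classical
  rw [letter₀, Combo.single, List.mem_singleton] at hx
  subst hx
  simp [KWord.countOver, KWord.heckeW, P.w₀_over]

variable [IsFiniteMeasure ((yVol (P.D.levelIdeal S.F)).restrict 𝔇F.carrier)]
  [IsFiniteMeasure ((yVol (P.D.levelIdeal S.K)).restrict 𝔇K.carrier)]
  {ι ι' : Type*} (e : HilbertBasis ι ℂ 𝔇F.Space) (e' : HilbertBasis ι' ℂ 𝔇K.Space)

theorem summable_aF : Summable fun i => ‖P.aF (fun i => e i) i‖ ^ 2 :=
  ((Combo.isYKernel_kerF P.D P.σ P.An.A).hasKernel_galOp (P.D.levelIdeal_map P.σ) 𝔇F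
    P.An.boundF).summable_norm_sq e

theorem summable_cF : Summable fun i => ‖P.cF (fun i => e i) i‖ ^ 2 := by
  have h := (Combo.hasKernelF P.D P.σ _ 𝔇F
    (Combo.bounded_mulF P.D P.σ P.letter₀ P.An.A P.An.boundF)).summable_norm_sq e
  refine h.congr fun i => ?_
  rw [cF, ← LT.StrongLimit.mulv, Combo.OF_mul]
  rfl

theorem summable_aK : Summable fun i => ‖P.aK (fun i => e' i) i‖ ^ 2 :=
  (Combo.hasKernelK P.D P.σ P.w₁ P.An.A 𝔇K P.An.boundK).summable_norm_sq e'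

theorem summable_cK : Summable fun i => ‖P.cK (fun i => e' i) i‖ ^ 2 := by
  have h := (Combo.hasKernelK P.D P.σ P.w₁ _ 𝔇K
    (Combo.bounded_mulK P.D P.σ P.w₁ P.letter₀ P.An.A P.An.boundK)).summable_norm_sq e'
  refine h.congr fun i => ?_
  rw [cK, ← LT.StrongLimit.mulv, Combo.OK_mul]
  rfl

omit [IsFiniteMeasure ((yVol (P.D.levelIdeal S.K)).restrict 𝔇K.carrier)] in
/-- The pairing on `F` as a twisted integral. -/
theorem pairing_eq_integralF [Countable ι] (Z : 𝔇F.Space →L[ℂ] 𝔇F.Space) (B : Combo S)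
    (hB : Combo.OF P.D P.σ P.letter₀ 𝔇F * (Z * Combo.OF P.D P.σ P.An.A 𝔇F) =
      Combo.OF P.D P.σ B 𝔇F)
    (hBb : ∃ C : ℝ, ∀ y z, ‖kerSum (Combo.kerF P.D P.σ B) y z‖ ≤ C) :
    LT.Joint.pairing (P.aF fun i => e i) (P.cF fun i => e i) Z =
      conj (∫ z in 𝔇F.carrier, kerSum (Combo.kerF P.D P.σ (Combo.mul P.An.A B)) z (galY P.σ z)
        ∂(yVol (P.D.levelIdeal S.F))) := by
  have h := LT.hasSum_inner_kerSum 𝔇F e (Combo.isYKernel_kerF P.D P.σ P.An.A)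
    (Combo.isYKernel_kerF P.D P.σ B) (Combo.conj_kerF P.D P.σ P.An.A)
    P.An.boundF hBb (g := galY P.σ)
    ((funext fun y => LT.galYEquiv_apply (P.D.levelIdeal_map P.σ) y :
      ⇑(galYEquiv (P.D.levelIdeal_map P.σ)) = galY P.σ) ▸
        (galYEquiv (P.D.levelIdeal_map P.σ)).measurable)
    ((Combo.isYKernel_kerF P.D P.σ B).hasKernel_galOp (P.D.levelIdeal_map P.σ) 𝔇F hBb)
  rw [Combo.kerF_mul] at h
  rw [← h.tsum_eq, Complex.conj_tsum]
  refine tsum_congr fun i => ?_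
  rw [inner_conj_symm,
    show (Combo.isYKernel_kerF P.D P.σ B).clm 𝔇F = Combo.OF P.D P.σ B 𝔇F from rfl, ← hB]
  simp only [aF, cF, LT.StrongLimit.mulv]
  exact (Combo.OF_symm P.D P.σ _ 𝔇F _ _).symm

omit [IsFiniteMeasure ((yVol (P.D.levelIdeal S.F)).restrict 𝔇F.carrier)] in
/-- The pairing on `K` as an integral over the diagonal. -/
theorem pairing_eq_integralK [Countable ι'] (Z : 𝔇K.Space →L[ℂ] 𝔇K.Space) (B : Combo S)
    (hB : Combo.OK P.D P.σ P.w₁ P.letter₀ 𝔇K * (Z * Combo.OK P.D P.σ P.w₁ P.An.A 𝔇K) =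
      Combo.OK P.D P.σ P.w₁ B 𝔇K)
    (hBb : ∃ C : ℝ, ∀ y z, ‖kerSum (Combo.kerK P.D P.σ P.w₁ B) y z‖ ≤ C) :
    LT.Joint.pairing (P.aK fun i => e' i) (P.cK fun i => e' i) Z =
      conj (∫ z in 𝔇K.carrier, kerSum (Combo.kerK P.D P.σ P.w₁ (Combo.mul P.An.A B)) z z
        ∂(yVol (P.D.levelIdeal S.K))) := by
  have h := LT.hasSum_inner_kerSum 𝔇K e' (Combo.isYKernel_kerK P.D P.σ P.w₁ P.An.A)
    (Combo.isYKernel_kerK P.D P.σ P.w₁ B) (Combo.conj_kerK P.D P.σ P.w₁ P.An.A)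
    P.An.boundK hBb (g := fun z => z) measurable_id
    ((Combo.isYKernel_kerK P.D P.σ P.w₁ B).hasKernel 𝔇K hBb)
  rw [Combo.kerK_mul] at h
  rw [← h.tsum_eq, Complex.conj_tsum]
  refine tsum_congr fun i => ?_
  rw [inner_conj_symm,
    show (Combo.isYKernel_kerK P.D P.σ P.w₁ B).clm 𝔇K = Combo.OK P.D P.σ P.w₁ B 𝔇K from rfl, ← hB]
  simp only [aK, cK, LT.StrongLimit.mulv]
  exact (Combo.OK_symm P.D P.σ P.w₁ _ 𝔇K _ _).symm

/-- **The pairings of the projections on the common kernels are proportional.** -/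
theorem exists_pairing_projection [Countable ι] [Countable ι']
    (hTI : ∃ c : ℂ, ∀ A : Combo S,
      (∃ v : HeightOneSpectrum (𝓞 S.K), (S.m : 𝓞 S.K) ∉ v.asIdeal ∧
        (∀ w, S.underK w = v → Ideal.absNorm w.asIdeal = Ideal.absNorm v.asIdeal) ∧
        ∀ x ∈ A, Odd (x.2.countOver v)) →
      (∃ C : ℝ, ∀ y z, ‖kerSum (Combo.kerF P.D P.σ A) y z‖ ≤ C) →
      (∃ C : ℝ, ∀ y z, ‖kerSum (Combo.kerK P.D P.σ P.w₁ A) y z‖ ≤ C) →
      ∫ y in 𝔇F.carrier, kerSum (Combo.kerF P.D P.σ A) y (galY P.σ y)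
          ∂(yVol (P.D.levelIdeal S.F)) =
        c * ∫ y in 𝔇K.carrier, kerSum (Combo.kerK P.D P.σ P.w₁ A) y y
          ∂(yVol (P.D.levelIdeal S.K))) :
    ∃ κ : ℂ,
      LT.Joint.pairing (P.aF fun i => e i) (P.cF fun i => e i)
          (LT.Joint.kerAll (P.XF 𝔇F 𝔇K)).starProjection =
        κ * LT.Joint.pairing (P.aK fun i => e' i) (P.cK fun i => e' i)
          (LT.Joint.kerAll (P.XK 𝔇F 𝔇K)).starProjection := by
  classical
  obtain ⟨c, hc⟩ := hTI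
  have hv : (S.m : 𝓞 S.K) ∉ P.v₀.asIdeal ∧
      ∀ w, S.underK w = P.v₀ → Ideal.absNorm w.asIdeal = Ideal.absNorm P.v₀.asIdeal := by
    refine ⟨fun h => P.letter_w₀.1 ?_, fun w hw => by rw [(P.letter w hw).2, hw]⟩
    rw [← P.w₀_over] at h
    exact (S.natCast_mem_underK _ _).mp h
  have hF1 := P.summable_aF 𝔇F e
  have hF2 := P.summable_cF 𝔇F e
  have hK1 := P.summable_aK 𝔇K e'
  have hK2 := P.summable_cK 𝔇K e'
  refine ⟨conj c, LT.Joint.pairing_projection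
    (fun n x y => by rw [XF, smul_apply, smul_apply, inner_smul_left, inner_smul_right,
      P.genF_symm 𝔇F (P.enum n) x y, Complex.conj_ofReal])
    (fun n x y => by rw [XK, smul_apply, smul_apply, inner_smul_left, inner_smul_right,
      P.genK_symm 𝔇K (P.enum n) x y, Complex.conj_ofReal])
    (P.norm_XF 𝔇F 𝔇K) (P.norm_XK 𝔇F 𝔇K) hF1 hF2 hK1 hK2 _ fun Z hZ => ?_⟩
  -- the identity for a combination with the smoothing factor
  have key : ∀ B : Combo S, Combo.OddAt P.v₀ B →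
      (∃ C : ℝ, ∀ y z, ‖kerSum (Combo.kerF P.D P.σ B) y z‖ ≤ C) →
      (∃ C : ℝ, ∀ y z, ‖kerSum (Combo.kerK P.D P.σ P.w₁ B) y z‖ ≤ C) →
      ∫ z in 𝔇F.carrier, kerSum (Combo.kerF P.D P.σ (Combo.mul P.An.A B)) z (galY P.σ z)
          ∂(yVol (P.D.levelIdeal S.F)) =
        c * ∫ z in 𝔇K.carrier, kerSum (Combo.kerK P.D P.σ P.w₁ (Combo.mul P.An.A B)) z z
          ∂(yVol (P.D.levelIdeal S.K)) := fun B hB hBF hBK =>
    hc _ ⟨P.v₀, hv.1, hv.2, P.evenAt_annihilator.mul_odd hB⟩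
      (Combo.bounded_mulF P.D P.σ _ _ hBF) (Combo.bounded_mulK P.D P.σ P.w₁ _ _ hBK)
  let Q : Submodule ℂ ((𝔇F.Space →L[ℂ] 𝔇F.Space) × (𝔇K.Space →L[ℂ] 𝔇K.Space)) :=
    { carrier := {Z | LT.Joint.pairing (P.aF fun i => e i) (P.cF fun i => e i) Z.1 =
        conj c * LT.Joint.pairing (P.aK fun i => e' i) (P.cK fun i => e' i) Z.2}
      zero_mem' := by simp [LT.Joint.pairing]
      add_mem' := fun {Z W} (hZ : _ = _) (hW : _ = _) => by
        show _ = _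
        rw [Prod.fst_add, Prod.snd_add, LT.Joint.pairing_add hF1 hF2, LT.Joint.pairing_add hK1 hK2,
          hZ, hW]
        ring
      smul_mem' := fun r Z (hZ : _ = _) => by
        show _ = _
        rw [Prod.smul_fst, Prod.smul_snd, LT.Joint.pairing_smul, LT.Joint.pairing_smul, hZ]
        ring }
  let G : Set ((𝔇F.Space →L[ℂ] 𝔇F.Space) × (𝔇K.Space →L[ℂ] 𝔇K.Space)) :=
    {Z | ∃ B : Combo S, Combo.EvenAt P.v₀ B ∧
      Z = (Combo.OF P.D P.σ B 𝔇F, Combo.OK P.D P.σ P.w₁ B 𝔇K)}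
  have hgen : Set.range (fun n => (P.XF 𝔇F 𝔇K n, P.XK 𝔇F 𝔇K n)) ⊆ Algebra.adjoin ℂ G := by
    rintro _ ⟨n, rfl⟩
    have e : (P.XF 𝔇F 𝔇K n, P.XK 𝔇F 𝔇K n) = (P.scale 𝔇F 𝔇K (P.enum n) : ℂ) •
        ((((Combo.OF P.D P.σ (P.combo (P.enum n)) 𝔇F),
            Combo.OK P.D P.σ P.w₁ (P.combo (P.enum n)) 𝔇K) :
          (𝔇F.Space →L[ℂ] 𝔇F.Space) × (𝔇K.Space →L[ℂ] 𝔇K.Space)) -
          P.scal (P.enum n) • 1) := rfl
    simp only [SetLike.mem_coe]
    rw [e]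
    refine Subalgebra.smul_mem _ (sub_mem ?_ (Subalgebra.smul_mem _ (one_mem _) _)) _
    exact Algebra.subset_adjoin (R := ℂ) (s := G) ⟨P.combo (P.enum n), P.evenAt_combo _, rfl⟩
  have hclosure : ∀ Z ∈ Submonoid.closure G, Z = 1 ∨ Z ∈ G := by
    intro Z hZ
    induction hZ using Submonoid.closure_induction with
    | mem Z h => exact Or.inr h
    | one => exact Or.inl rfl
    | mul a b _ _ ha hb =>
      rcases ha with rfl | ⟨x, hx, rfl⟩
      · rwa [one_mul]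
      rcases hb with rfl | ⟨y, hy, rfl⟩
      · rw [mul_one]; exact Or.inr ⟨x, hx, rfl⟩
      exact Or.inr ⟨Combo.mul x y, hx.mul hy, by rw [Prod.mk_mul_mk, Combo.OF_mul, Combo.OK_mul]⟩
  have hsub : (Algebra.adjoin ℂ G).toSubmodule ≤ Q := by
    rw [Algebra.adjoin_eq_span, Submodule.span_le]
    intro Z hZ
    have hTA : Combo.OddAt P.v₀ (Combo.mul P.letter₀ P.An.A) :=
      P.oddAt_letter₀.mul P.evenAt_annihilator
    rcases hclosure Z hZ with rfl | ⟨B, hB, rfl⟩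
    · have hxF := Combo.bounded_mulF P.D P.σ P.letter₀ P.An.A P.An.boundF
      have hxK := Combo.bounded_mulK P.D P.σ P.w₁ P.letter₀ P.An.A P.An.boundK
      show LT.Joint.pairing (P.aF fun i => e i) (P.cF fun i => e i) 1 =
        conj c * LT.Joint.pairing (P.aK fun i => e' i) (P.cK fun i => e' i) 1
      rw [P.pairing_eq_integralF 𝔇F e 1 _ (by rw [one_mul, Combo.OF_mul]) hxF,
        P.pairing_eq_integralK 𝔇K e' 1 _ (by rw [one_mul, Combo.OK_mul]) hxK,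
        key _ hTA hxF hxK, map_mul]
    · have hxF := Combo.bounded_mulF P.D P.σ P.letter₀ _
        (Combo.bounded_mulF P.D P.σ B _ P.An.boundF)
      have hxK := Combo.bounded_mulK P.D P.σ P.w₁ P.letter₀ _
        (Combo.bounded_mulK P.D P.σ P.w₁ B _ P.An.boundK)
      show LT.Joint.pairing (P.aF fun i => e i) (P.cF fun i => e i) (Combo.OF P.D P.σ B 𝔇F) =
        conj c * LT.Joint.pairing (P.aK fun i => e' i) (P.cK fun i => e' i)
          (Combo.OK P.D P.σ P.w₁ B 𝔇K)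
      rw [P.pairing_eq_integralF 𝔇F e _ _ (by rw [Combo.OF_mul, Combo.OF_mul]) hxF,
        P.pairing_eq_integralK 𝔇K e' _ _ (by rw [Combo.OK_mul, Combo.OK_mul]) hxK,
        key _ (P.oddAt_letter₀.mul (hB.mul P.evenAt_annihilator)) hxF hxK, map_mul]
  exact hsub (Algebra.adjoin_le hgen hZ)

end DescentData

end FermatAgent.LTG

end
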